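import Mathlib
import Fermat.Agent.S18.B12.H33.RegChart
import Fermat.Agent.S18.B12.H858.B2Normal

/-!
# S37 / RIM-NORMAL, generic step (helper997): normality of the special fibre of a chart,
in REDUCTION-MAP form

Setting of `S18.B12.H33.RegChart`: `R` a discrete valuation ring, `F` a field of characteristic
`0` which is an `R`-algebra, `x : F` transcendental over `R`, `F` finite over `Frac R (x)`,
`B := H138.chart R {x}` (the integral closure of `R[x]` in `F`), `w` a uniformiser of `R`.

Additional datum: a ring homomorphism `ρ : B →+* K` into a domain `K` with kernel `w B`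
(in the application: reduction of `q`-expansions, `K = 𝔽_ℓ((q))`).

`normal_chart_red` : if the special fibre is elementwise separable (`hsep`, via `ρ`) and the
generic fibre is unramified outside `S` (`hNC`), then `ρ(B)` is integrally closed in its field of
fractions, in the form:  `z ∈ K`, `z · ρ(g(x)) = ρ(b)` with `ρ(g(x)) ≠ 0`, and `z` integral over
`ρ(R[x])`  ⟹  `z = ρ(b₀)` for some `b₀ ∈ B`.

Proof: `S18.B12.H858.b2Normal` (landed, unconditional) + `S18.H425.hsep_poly`.
-/

set_option autoImplicit false
set_option linter.style.haveILetI false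
set_option linter.unusedSectionVars false

noncomputable section

namespace Fermat.Agent.S37.H997

open Polynomial
open Fermat.Agent.S18 Fermat.Agent.S18.B12 Fermat.Agent.S18.B12.H33

universe u v

section Generic

variable {R : Type u} [CommRing R] [IsDomain R] [IsDiscreteValuationRing R]
  {F : Type v} [Field F] [CharZero F] [Algebra R F]

/-- The uniformiser is prime in the chart if the chart has a reduction map into a domain whose
kernel is generated by the uniformiser. -/
theorem prime_of_red {x : F} (hx : Transcendental R x) (w : R) (hw : Irreducible w)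
    {K : Type*} [CommRing K] [IsDomain K]
    (ρ : H138.chart R ({x} : Set F) →+* K)
    (hρw : ρ (algebraMap R (H138.chart R ({x} : Set F)) w) = 0)
    (hker : ∀ b : H138.chart R ({x} : Set F), ρ b = 0 →
      ∃ y : H138.chart R ({x} : Set F), b = algebraMap R (H138.chart R ({x} : Set F)) w * y) :
    Prime (algebraMap R (H138.chart R ({x} : Set F)) w) := by
  have hinjF : Function.Injective (algebraMap R F) := algebraMap_injective_of_transcendental hx
  have hw0 : algebraMap R (H138.chart R ({x} : Set F)) w ≠ 0 := by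
    intro h0
    have h1 : algebraMap R F w = 0 := by
      have := congrArg (fun t : H138.chart R ({x} : Set F) => (t : F)) h0
      simpa using this
    exact hw.ne_zero (hinjF (by rw [h1, map_zero]))
  have hkereq : RingHom.ker ρ =
      Ideal.span {algebraMap R (H138.chart R ({x} : Set F)) w} := by
    ext b
    rw [RingHom.mem_ker, Ideal.mem_span_singleton]
    constructor
    · intro hb
      obtain ⟨y, hy⟩ := hker b hb
      exact ⟨y, hy⟩
    · rintro ⟨y, rfl⟩
      rw [map_mul, hρw, zero_mul]
  have hprime : (RingHom.ker ρ).IsPrime := RingHom.ker_isPrime ρ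
  rw [hkereq] at hprime
  exact (Ideal.span_singleton_prime hw0).1 hprime

/-- **Normality of the special fibre of a chart, reduction-map form.** -/
theorem normal_chart_red
    {x : F} (hx : Transcendental R x) [FiniteDimensional (H138.baseField R x) F]
    (w : R) (hw : Irreducible w)
    {K : Type*} [CommRing K] [IsDomain K]
    (ρ : H138.chart R ({x} : Set F) →+* K)
    (hρw : ρ (algebraMap R (H138.chart R ({x} : Set F)) w) = 0)
    (hker : ∀ b : H138.chart R ({x} : Set F), ρ b = 0 →
      ∃ y : H138.chart R ({x} : Set F), b = algebraMap R (H138.chart R ({x} : Set F)) w * y)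
    (hsep : ∀ b : H138.chart R ({x} : Set F), ∃ Q : R[X][X],
      Q.eval₂ (ρ.comp (chartPolyHom R x : R[X] →+* H138.chart R ({x} : Set F))) (ρ b) = 0 ∧
      (derivative Q).eval₂
        (ρ.comp (chartPolyHom R x : R[X] →+* H138.chart R ({x} : Set F))) (ρ b) ≠ 0)
    (S : Finset R) (hS : ∀ c ∈ S, ∀ c' ∈ S, c ≠ c' → IsUnit (c - c'))
    (hNC : ∀ π : R[X], Prime π → ¬ Associated π (C w) → (∀ c ∈ S, ¬ Associated π (X - C c)) →
        (Ideal.span {chartPolyHom R x π}).IsRadical)
    (z : K) (b : H138.chart R ({x} : Set F)) (g : R[X])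
    (hg : ρ (chartPolyHom R x g) ≠ 0) (hz : z * ρ (chartPolyHom R x g) = ρ b)
    (p : R[X][X]) (hp : p.Monic)
    (hpz : p.eval₂ (ρ.comp (chartPolyHom R x : R[X] →+* H138.chart R ({x} : Set F))) z = 0) :
    ∃ b₀ : H138.chart R ({x} : Set F), ρ b₀ = z := by
  classical
  haveI : CharZero R := (algebraMap R F).charZero
  obtain ⟨hic, hfin⟩ := chart_package (R := R) hx
  letI := chartAlgebra R x
  haveI := hic
  haveI := hfin
  haveI : Module.IsTorsionFree R[X] (H138.chart R ({x} : Set F)) :=
    Module.isTorsionFree_iff_algebraMap_injective.2 (chartPolyHom_injective hx)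
  have hCw : algebraMap R[X] (H138.chart R ({x} : Set F)) (C w)
      = algebraMap R (H138.chart R ({x} : Set F)) w := chartPolyHom_C x w
  have halg : ∀ q : R[X], algebraMap R[X] (H138.chart R ({x} : Set F)) q = chartPolyHom R x q :=
    fun _ => rfl
  have hdom : Prime (algebraMap R[X] (H138.chart R ({x} : Set F)) (C w)) := by
    rw [hCw]; exact prime_of_red hx w hw ρ hρw hker
  -- divisibility by `w` is detected by `ρ`
  have hdvd_iff : ∀ t : H138.chart R ({x} : Set F),
      algebraMap R[X] (H138.chart R ({x} : Set F)) (C w) ∣ t ↔ ρ t = 0 := by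
    intro t
    rw [hCw]
    constructor
    · rintro ⟨y, rfl⟩
      rw [map_mul, hρw, zero_mul]
    · intro ht
      obtain ⟨y, hy⟩ := hker t ht
      exact ⟨y, hy⟩
  have hρeval : ∀ (Q : R[X][X]) (t : H138.chart R ({x} : Set F)),
      ρ (aeval t Q) =
        Q.eval₂ (ρ.comp (chartPolyHom R x : R[X] →+* H138.chart R ({x} : Set F))) (ρ t) := by
    intro Q t
    rw [aeval_def, hom_eval₂]
    rfl
  -- hsep
  have hsep' := H425.hsep_poly R w hw (H138.chart R ({x} : Set F)) hdom (by
    intro t
    obtain ⟨Q, h1, h2⟩ := hsep t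
    refine ⟨Q, ?_, ?_⟩
    · rw [hdvd_iff, hρeval]; exact h1
    · rw [hdvd_iff, hρeval]; exact h2)
  -- `w ∤ g`
  have hgw : ¬ C w ∣ g := by
    rintro ⟨g', rfl⟩
    apply hg
    rw [map_mul, chartPolyHom_C, map_mul, hρw, zero_mul]
  -- the integrality relation
  set φ : R[X] →+* K := ρ.comp (chartPolyHom R x : R[X] →+* H138.chart R ({x} : Set F)) with hφ
  set d := p.natDegree with hd
  have hrel : b ^ d + ∑ i : Fin d, chartPolyHom R x (p.coeff (i : ℕ)) * b ^ (i : ℕ) *
      algebraMap R[X] (H138.chart R ({x} : Set F)) g ^ (d - (i : ℕ)) ∈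
        Ideal.span {algebraMap R[X] (H138.chart R ({x} : Set F)) (C w)} := by
    rw [Ideal.mem_span_singleton, hdvd_iff]
    rw [map_add, map_pow, map_sum]
    have h1 : p.eval₂ φ z * φ g ^ d = 0 := by rw [hpz, zero_mul]
    rw [eval₂_eq_sum_range, Finset.sum_mul, Finset.sum_range_succ, ← hd] at h1
    have hlead : p.coeff d = 1 := hp.coeff_natDegree
    rw [hlead, map_one, one_mul, ← mul_pow] at h1
    have hzg : z * φ g = ρ b := hz
    rw [hzg, add_comm] at h1
    rw [← h1]
    congr 1
    rw [← Fin.sum_univ_eq_sum_range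
      (fun i => φ (p.coeff i) * z ^ i * φ g ^ d) d]
    refine Finset.sum_congr rfl fun i _ => ?_
    have hi : (i : ℕ) ≤ d := i.2.le
    rw [map_mul, map_mul, map_pow, map_pow, halg]
    have hsplit : φ g ^ d = φ g ^ (i : ℕ) * φ g ^ (d - (i : ℕ)) := by
      rw [← pow_add, Nat.add_sub_cancel' hi]
    rw [hsplit, ← hzg, mul_pow]
    show φ (p.coeff i) * (z ^ (i : ℕ) * φ g ^ (i : ℕ)) * φ g ^ (d - (i : ℕ)) = _
    ring
  obtain ⟨b₀, hb₀⟩ := H858.b2Normal.{u, v} R w hw (H138.chart R ({x} : Set F)) hsep' S hS hNC
    b g hgw ⟨d, fun i => chartPolyHom R x (p.coeff (i : ℕ)), hrel⟩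
  rw [Ideal.mem_span_singleton, hdvd_iff, map_sub, map_mul, halg, sub_eq_zero] at hb₀
  refine ⟨b₀, ?_⟩
  have h2 : z * ρ (chartPolyHom R x g) = ρ b₀ * ρ (chartPolyHom R x g) := by
    rw [hz, hb₀, mul_comm]
  exact (mul_right_cancel₀ hg h2).symm

end Generic

end Fermat.Agent.S37.H997
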