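import Mathlib
import Fermat.Agent.S37.H997.NormalChart
import Fermat.Agent.S28.H865Keystone
import Fermat.Agent.S28.H508.CoreToBasis
import Fermat.Agent.S28.H867.Core
import Fermat.Agent.S28.H807.Analytic
import Fermat.Agent.S28.H25.Theta
import Fermat.Agent.S18.MOD.H396.SepLaurent

/-!
# S37 / RIM-NORMAL over `ℤ_(ℓ)` (helper997): the reduction map of a chart of the Igusa model

`B_t := IgusaScheme.chartAlg N ℓ {t}`, `t ∈ {j, j⁻¹}` (the integral closure of `ℤ_(ℓ)[t]` in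
`F = ℚ(X₀(N)) ⊆ ℚ((q))`), with the reduction `ρ := S28.H865.chartRed : B_t → 𝔽_ℓ((q))`.
We identify `B_t` with `S18.H138.chart ℤ_(ℓ) {t}` and provide the inputs of
`H997.normal_chart_red` which come from row S28:

* `basisData`       : `S28.BasisData N ℓ` (unconditional, `ℓ ∤ N`);
* `redE`, `redE_uniformizer`, `redE_ker` : the reduction map, `ρ ℓ = 0`, `ker ρ = ℓ B_t`;
* `redE_comp_chartPolyHom` : `ρ(g(t)) = ḡ(ρ t)`;
* `redE_sep`        : elementwise separability of the special fibre (`d(ρ t)/dq ≠ 0`);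
* `exists_red_eq`   : every `w ∈ F_{N,𝔽_ℓ}` is `ρ(b)/ρ(g(t))`, `b ∈ B_t`, `ρ(g(t)) ≠ 0`.
-/

set_option autoImplicit false
set_option linter.style.haveILetI false
set_option linter.unusedSectionVars false

noncomputable section

namespace Fermat.Agent.S37.H997

open Polynomial ModularCurve ModularCurve.IgusaScheme HahnSeries
open Fermat.Agent.S18 Fermat.Agent.S18.B12.H33 Fermat.Agent.S28 Fermat.Agent.S28.H865

variable (N : ℕ) [NeZero N] (ℓ : ℕ) [Fact ℓ.Prime]

/-- `S28.BasisData N ℓ`, unconditionally (the proof of the frozen S28). -/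
theorem basisData (hℓN : ¬ ℓ ∣ N) : BasisData N ℓ :=
  H508.basisData_of_coreData N ℓ
    (H867.coreData_of_inputs N ℓ hℓN (ZMod ℓ)
      (fun p hp _ _ => H807.nonempty_modPolyData p hp)
      (fun p hp _ _ => H807.nonempty_unitPolyData p hp)
      H25.theta_identity)

/-- the uniformiser `ℓ` of `ℤ_(ℓ)` -/
def unif : ↥(GaloisRep.ratLocalizedAt ℓ) := ((ℓ : ℕ) : ↥(GaloisRep.ratLocalizedAt ℓ))

theorem unif_irreducible : Irreducible (unif ℓ) :=
  (prime_natCast_ratLocalizedAt ℓ).irreducible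

variable {N ℓ}

/-- The chart of `S18.H138` is the Prelude chart. -/
def chartE (t : ↥(modularFunctionFieldFull N)) :
    H138.chart ↥(GaloisRep.ratLocalizedAt ℓ) ({t} : Set ↥(modularFunctionFieldFull N)) ≃+*
      chartAlg N ℓ ({t} : Set ↥(modularFunctionFieldFull N)) where
  toFun c := ⟨c.1, c.2⟩
  invFun c := ⟨c.1, c.2⟩
  left_inv _ := rfl
  right_inv _ := rfl
  map_mul' _ _ := rfl
  map_add' _ _ := rfl

@[simp] theorem coe_chartE (t : ↥(modularFunctionFieldFull N))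
    (c : H138.chart ↥(GaloisRep.ratLocalizedAt ℓ) ({t} : Set ↥(modularFunctionFieldFull N))) :
    ((chartE (ℓ := ℓ) t c : chartAlg N ℓ ({t} : Set ↥(modularFunctionFieldFull N))) :
      ↥(modularFunctionFieldFull N)) = c := rfl

/-- The reduction map on the chart `H138.chart ℤ_(ℓ) {t}`. -/
def redE {t : ↥(modularFunctionFieldFull N)}
    (hS : ({t} : Set ↥(modularFunctionFieldFull N)) ⊆ {jFull N, (jFull N)⁻¹}) :
    H138.chart ↥(GaloisRep.ratLocalizedAt ℓ) ({t} : Set ↥(modularFunctionFieldFull N)) →+*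
      LaurentSeries (ZMod ℓ) :=
  (chartRed hS).comp (chartE (ℓ := ℓ) t).toRingHom

theorem redE_apply {t : ↥(modularFunctionFieldFull N)}
    (hS : ({t} : Set ↥(modularFunctionFieldFull N)) ⊆ {jFull N, (jFull N)⁻¹})
    (c : H138.chart ↥(GaloisRep.ratLocalizedAt ℓ) ({t} : Set ↥(modularFunctionFieldFull N))) :
    redE hS c = chartRed hS (chartE (ℓ := ℓ) t c) := rfl

theorem redE_uniformizer {t : ↥(modularFunctionFieldFull N)}
    (hS : ({t} : Set ↥(modularFunctionFieldFull N)) ⊆ {jFull N, (jFull N)⁻¹}) :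
    redE hS (algebraMap ↥(GaloisRep.ratLocalizedAt ℓ)
      (H138.chart ↥(GaloisRep.ratLocalizedAt ℓ) ({t} : Set ↥(modularFunctionFieldFull N)))
      (unif ℓ)) = 0 := by
  rw [unif, map_natCast, map_natCast]
  exact natCast_laurent_zmod_eq_zero ℓ

/-- `ker ρ = ℓ B_t`, from the keystone of S28. -/
theorem redE_ker {t : ↥(modularFunctionFieldFull N)}
    (hS : ({t} : Set ↥(modularFunctionFieldFull N)) ⊆ {jFull N, (jFull N)⁻¹})
    (ht : Transcendental ↥(GaloisRep.ratLocalizedAt ℓ) t)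
    (hHC : ∀ a : ↥(modularFunctionFieldFull N), (a : LaurentSeries ℚ) ∈ igV ℓ →
      ∃ s : ↥(modularFunctionFieldFull N),
        s ∈ Algebra.adjoin ↥(GaloisRep.ratLocalizedAt ℓ)
          ({t} : Set ↥(modularFunctionFieldFull N)) ∧
        (¬ ∃ v ∈ igV ℓ, (s : LaurentSeries ℚ) = ((ℓ : ℕ) : LaurentSeries ℚ) * v) ∧
        s * a ∈ chartAlg N ℓ {t})
    (b : H138.chart ↥(GaloisRep.ratLocalizedAt ℓ) ({t} : Set ↥(modularFunctionFieldFull N)))
    (hb : redE hS b = 0) :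
    ∃ y : H138.chart ↥(GaloisRep.ratLocalizedAt ℓ) ({t} : Set ↥(modularFunctionFieldFull N)),
      b = algebraMap ↥(GaloisRep.ratLocalizedAt ℓ)
        (H138.chart ↥(GaloisRep.ratLocalizedAt ℓ) ({t} : Set ↥(modularFunctionFieldFull N)))
        (unif ℓ) * y := by
  obtain ⟨y, hy⟩ := chartRed_ker_le N ℓ hS ht hHC (chartE (ℓ := ℓ) t b) hb
  refine ⟨(chartE (ℓ := ℓ) t).symm y, ?_⟩
  apply (chartE (ℓ := ℓ) t).injective
  rw [hy, map_mul, RingEquiv.apply_symm_apply, unif, map_natCast, map_natCast]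

/-! ### Constants and polynomials in `t` -/

theorem resZl_surjective : Function.Surjective (resZl ℓ) := by
  intro c
  refine ⟨((ZMod.val c : ℕ) : ↥(GaloisRep.ratLocalizedAt ℓ)), ?_⟩
  rw [map_natCast, ZMod.natCast_zmod_val]

theorem toRes_C (r : ↥(GaloisRep.ratLocalizedAt ℓ)) :
    toRes ℓ (HahnSeries.C r) = HahnSeries.C (resZl ℓ r) := by
  show coeffMap (resZl ℓ) (HahnSeries.single 0 r) = HahnSeries.single 0 (resZl ℓ r)
  exact coeffMap_single _ 0 r

theorem coe_algebraMap_eq_toQ (r : ↥(GaloisRep.ratLocalizedAt ℓ)) :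
    ((algebraMap ↥(GaloisRep.ratLocalizedAt ℓ) ↥(modularFunctionFieldFull N) r :
      ↥(modularFunctionFieldFull N)) : LaurentSeries ℚ) = toQ ℓ (HahnSeries.C r) :=
  congrArg (fun f : ↥(GaloisRep.ratLocalizedAt ℓ) →+* LaurentSeries ℚ => f r)
    (ratLocalizedAt_ringHom_ext
      ((algebraMap ↥(modularFunctionFieldFull N) (LaurentSeries ℚ)).comp
        (algebraMap ↥(GaloisRep.ratLocalizedAt ℓ) ↥(modularFunctionFieldFull N)))
      ((toQ ℓ).comp HahnSeries.C))

/-- the reduction of an element of `F ∩ igV`, by a numerator and a denominator -/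
theorem redE_eq {t : ↥(modularFunctionFieldFull N)}
    (hS : ({t} : Set ↥(modularFunctionFieldFull N)) ⊆ {jFull N, (jFull N)⁻¹})
    (c : H138.chart ↥(GaloisRep.ratLocalizedAt ℓ) ({t} : Set ↥(modularFunctionFieldFull N)))
    (a b : LaurentSeries ↥(GaloisRep.ratLocalizedAt ℓ)) (hb : toRes ℓ b ≠ 0)
    (h : ((c : ↥(modularFunctionFieldFull N)) : LaurentSeries ℚ) * toQ ℓ b = toQ ℓ a) :
    redE hS c = toRes ℓ a / toRes ℓ b := by
  rw [redE_apply, chartRed_apply]
  exact igRed_eq ℓ _ a b hb h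

/-- the reduction in terms of `igRed` -/
theorem redE_eq_igRed {t : ↥(modularFunctionFieldFull N)}
    (hS : ({t} : Set ↥(modularFunctionFieldFull N)) ⊆ {jFull N, (jFull N)⁻¹})
    (c : H138.chart ↥(GaloisRep.ratLocalizedAt ℓ) ({t} : Set ↥(modularFunctionFieldFull N)))
    (hc : ((c : ↥(modularFunctionFieldFull N)) : LaurentSeries ℚ) ∈ igV ℓ) :
    redE hS c = igRed ℓ ⟨((c : ↥(modularFunctionFieldFull N)) : LaurentSeries ℚ), hc⟩ := rfl

theorem redE_algebraMap {t : ↥(modularFunctionFieldFull N)}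
    (hS : ({t} : Set ↥(modularFunctionFieldFull N)) ⊆ {jFull N, (jFull N)⁻¹})
    (r : ↥(GaloisRep.ratLocalizedAt ℓ)) :
    redE hS (algebraMap ↥(GaloisRep.ratLocalizedAt ℓ)
      (H138.chart ↥(GaloisRep.ratLocalizedAt ℓ) ({t} : Set ↥(modularFunctionFieldFull N))) r) =
      HahnSeries.C (resZl ℓ r) := by
  rw [redE_eq hS _ (HahnSeries.C r) 1 (by simp)
    (by rw [map_one, mul_one]; exact coe_algebraMap_eq_toQ r), toRes_C, map_one, div_one]

/-- `ρ(g(t)) = ḡ(ρ t)`. -/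
theorem redE_comp_chartPolyHom {t : ↥(modularFunctionFieldFull N)}
    (hS : ({t} : Set ↥(modularFunctionFieldFull N)) ⊆ {jFull N, (jFull N)⁻¹}) :
    (redE hS).comp (chartPolyHom ↥(GaloisRep.ratLocalizedAt ℓ) t :
        Polynomial ↥(GaloisRep.ratLocalizedAt ℓ) →+*
          H138.chart ↥(GaloisRep.ratLocalizedAt ℓ) ({t} : Set ↥(modularFunctionFieldFull N))) =
      (Polynomial.eval₂RingHom (HahnSeries.C : ZMod ℓ →+* LaurentSeries (ZMod ℓ))
        (redE hS (chartX ↥(GaloisRep.ratLocalizedAt ℓ) t))).comp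
        (Polynomial.mapRingHom (resZl ℓ)) := by
  refine Polynomial.ringHom_ext (fun r => ?_) ?_
  · rw [RingHom.comp_apply, RingHom.comp_apply]
    show redE hS (chartPolyHom ↥(GaloisRep.ratLocalizedAt ℓ) t (Polynomial.C r)) = _
    rw [chartPolyHom_C, redE_algebraMap, Polynomial.coe_mapRingHom, Polynomial.map_C,
      Polynomial.coe_eval₂RingHom, Polynomial.eval₂_C]
  · rw [RingHom.comp_apply, RingHom.comp_apply]
    show redE hS (chartPolyHom ↥(GaloisRep.ratLocalizedAt ℓ) t Polynomial.X) = _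
    rw [chartPolyHom_apply, Polynomial.aeval_X, Polynomial.coe_mapRingHom, Polynomial.map_X,
      Polynomial.coe_eval₂RingHom, Polynomial.eval₂_X]

theorem redE_chartPolyHom {t : ↥(modularFunctionFieldFull N)}
    (hS : ({t} : Set ↥(modularFunctionFieldFull N)) ⊆ {jFull N, (jFull N)⁻¹})
    (g : Polynomial ↥(GaloisRep.ratLocalizedAt ℓ)) :
    redE hS (chartPolyHom ↥(GaloisRep.ratLocalizedAt ℓ) t g) =
      (g.map (resZl ℓ)).eval₂ (HahnSeries.C : ZMod ℓ →+* LaurentSeries (ZMod ℓ))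
        (redE hS (chartX ↥(GaloisRep.ratLocalizedAt ℓ) t)) :=
  congrArg (fun f : Polynomial ↥(GaloisRep.ratLocalizedAt ℓ) →+* LaurentSeries (ZMod ℓ) => f g)
    (redE_comp_chartPolyHom hS)

/-! ### Separability of the special fibre -/

/-- `d(x⁻¹)/dq ≠ 0` if `dx/dq ≠ 0`. -/
theorem laurentDer_inv_ne_zero (κ : Type*) [Field κ] (x : LaurentSeries κ)
    (hx : Fermat.Agent.S18.MOD.H396.laurentDer κ x ≠ 0) :
    Fermat.Agent.S18.MOD.H396.laurentDer κ x⁻¹ ≠ 0 := by
  rw [Fermat.Agent.S18.MOD.H396.laurentDer_apply] at hx ⊢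
  intro h
  have hx0 : x ≠ 0 := by
    rintro rfl
    exact hx (map_zero _)
  have h1 : Fermat.Agent.S24.H84.laurentD κ (x * x⁻¹) =
      x * Fermat.Agent.S24.H84.laurentD κ x⁻¹ + x⁻¹ * Fermat.Agent.S24.H84.laurentD κ x := by
    have := (Fermat.Agent.S24.H84.laurentD κ).leibniz x x⁻¹
    simpa only [smul_eq_mul] using this
  rw [mul_inv_cancel₀ hx0, (Fermat.Agent.S24.H84.laurentD κ).map_one_eq_zero, h, mul_zero,
    zero_add] at h1
  rcases mul_eq_zero.mp h1.symm with h2 | h2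
  · exact inv_ne_zero hx0 h2
  · exact hx h2

/-- **Elementwise separability of the special fibre of the chart.** -/
theorem redE_sep {t : ↥(modularFunctionFieldFull N)}
    (hS : ({t} : Set ↥(modularFunctionFieldFull N)) ⊆ {jFull N, (jFull N)⁻¹})
    (ht : Transcendental ↥(GaloisRep.ratLocalizedAt ℓ) t)
    [FiniteDimensional (H138.baseField ↥(GaloisRep.ratLocalizedAt ℓ) t)
      ↥(modularFunctionFieldFull N)]
    (hD : Fermat.Agent.S18.MOD.H396.laurentDer (ZMod ℓ)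
      (redE hS (chartX ↥(GaloisRep.ratLocalizedAt ℓ) t)) ≠ 0)
    (b : H138.chart ↥(GaloisRep.ratLocalizedAt ℓ) ({t} : Set ↥(modularFunctionFieldFull N))) :
    ∃ Q : Polynomial (Polynomial ↥(GaloisRep.ratLocalizedAt ℓ)),
      Q.eval₂ ((redE hS).comp (chartPolyHom ↥(GaloisRep.ratLocalizedAt ℓ) t :
        Polynomial ↥(GaloisRep.ratLocalizedAt ℓ) →+*
          H138.chart ↥(GaloisRep.ratLocalizedAt ℓ) ({t} : Set ↥(modularFunctionFieldFull N))))
        (redE hS b) = 0 ∧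
      (derivative Q).eval₂ ((redE hS).comp (chartPolyHom ↥(GaloisRep.ratLocalizedAt ℓ) t :
        Polynomial ↥(GaloisRep.ratLocalizedAt ℓ) →+*
          H138.chart ↥(GaloisRep.ratLocalizedAt ℓ) ({t} : Set ↥(modularFunctionFieldFull N))))
        (redE hS b) ≠ 0 := by
  classical
  set xb : LaurentSeries (ZMod ℓ) := redE hS (chartX ↥(GaloisRep.ratLocalizedAt ℓ) t) with hxb
  set ev : Polynomial (ZMod ℓ) →+* LaurentSeries (ZMod ℓ) :=
    Polynomial.eval₂RingHom (HahnSeries.C : ZMod ℓ →+* LaurentSeries (ZMod ℓ)) xb with hev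
  have hcomp := redE_comp_chartPolyHom (ℓ := ℓ) hS
  rw [← hxb, ← hev] at hcomp
  -- `b` is integral over `ℤ_(ℓ)[X]`
  haveI := isIntegrallyClosed_polynomial_ratLocalizedAt ℓ
  obtain ⟨-, hfin⟩ := chart_package (R := ↥(GaloisRep.ratLocalizedAt ℓ)) ht
  have hint : (chartPolyHom ↥(GaloisRep.ratLocalizedAt ℓ) t :
      Polynomial ↥(GaloisRep.ratLocalizedAt ℓ) →+*
        H138.chart ↥(GaloisRep.ratLocalizedAt ℓ)
          ({t} : Set ↥(modularFunctionFieldFull N))).IsIntegralElem b := by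
    letI := chartAlgebra ↥(GaloisRep.ratLocalizedAt ℓ) t
    haveI := hfin
    exact IsIntegral.of_finite (Polynomial ↥(GaloisRep.ratLocalizedAt ℓ)) b
  obtain ⟨P, hP, hPb⟩ := hint
  -- `ρ b` is integral over `𝔽_ℓ[x̄]`
  have hPρ : (P.map (Polynomial.mapRingHom (resZl ℓ))).eval₂ ev (redE hS b) = 0 := by
    rw [Polynomial.eval₂_map, ← hcomp, ← Polynomial.hom_eval₂, hPb, map_zero]
  have hevA : ev = (aeval xb : Polynomial (ZMod ℓ) →ₐ[ZMod ℓ] LaurentSeries (ZMod ℓ)).toRingHom := by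
    refine Polynomial.ringHom_ext (fun r => ?_) ?_
    · rw [hev, Polynomial.coe_eval₂RingHom, Polynomial.eval₂_C]
      show _ = aeval xb (Polynomial.C r)
      rw [aeval_C, algebraMap_laurentSeries_eq_single]
      rfl
    · rw [hev, Polynomial.coe_eval₂RingHom, Polynomial.eval₂_X]
      show _ = aeval xb Polynomial.X
      rw [aeval_X]
  -- `ρ b` is algebraic over `𝔽_ℓ(x̄)`
  have halg : IsAlgebraic (IntermediateField.adjoin (ZMod ℓ) {xb}) (redE hS b) := by
    set ψ : Polynomial (ZMod ℓ) →+* IntermediateField.adjoin (ZMod ℓ) {xb} :=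
      (aeval (IntermediateField.AdjoinSimple.gen (ZMod ℓ) xb) :
        Polynomial (ZMod ℓ) →ₐ[ZMod ℓ] IntermediateField.adjoin (ZMod ℓ) {xb}).toRingHom with hψ
    have hψev : (algebraMap (IntermediateField.adjoin (ZMod ℓ) {xb})
        (LaurentSeries (ZMod ℓ))).comp ψ = ev := by
      rw [hevA]
      refine Polynomial.ringHom_ext (fun r => ?_) ?_
      · rw [RingHom.comp_apply]
        show algebraMap _ _ (aeval (IntermediateField.AdjoinSimple.gen (ZMod ℓ) xb)
          (Polynomial.C r)) = aeval xb (Polynomial.C r)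
        rw [aeval_C, aeval_C, ← IsScalarTower.algebraMap_apply]
      · rw [RingHom.comp_apply]
        show algebraMap _ _ (aeval (IntermediateField.AdjoinSimple.gen (ZMod ℓ) xb)
          Polynomial.X) = aeval xb Polynomial.X
        rw [aeval_X, aeval_X, IntermediateField.AdjoinSimple.algebraMap_gen]
    refine IsIntegral.isAlgebraic ⟨(P.map (Polynomial.mapRingHom (resZl ℓ))).map ψ,
      (hP.map _).map _, ?_⟩
    rw [Polynomial.eval₂_map, hψev]
    exact hPρ
  have hD' : Fermat.Agent.S18.MOD.H396.laurentDer (ZMod ℓ) xb ≠ 0 := hD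
  obtain ⟨Qb, hQ1, hQ2⟩ := Fermat.Agent.S18.MOD.H396.exists_bivariate_separable
    (Fermat.Agent.S18.MOD.H396.laurentDer (ZMod ℓ)) xb hD' (redE hS b) halg
  rw [← hevA] at hQ1 hQ2
  -- lift `Qb` to `ℤ_(ℓ)[X][Y]`
  obtain ⟨Q, hQ⟩ := Polynomial.map_surjective (Polynomial.mapRingHom (resZl ℓ))
    (Polynomial.map_surjective (resZl ℓ) (resZl_surjective (ℓ := ℓ))) Qb
  refine ⟨Q, ?_, ?_⟩
  · rw [hcomp, ← Polynomial.eval₂_map, hQ]
    exact hQ1
  · rw [hcomp, ← Polynomial.eval₂_map, ← Polynomial.derivative_map, hQ]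
    exact hQ2

/-! ### Every function of the special fibre is a quotient of reductions -/

/-- Every `w ∈ F_{N,𝔽_ℓ}` is the reduction of an element of `F ∩ igV`. -/
theorem exists_igRed_eq (w : LaurentSeries (ZMod ℓ))
    (hw : w ∈ modularFunctionFieldFullC (ZMod ℓ) N) :
    ∃ (a : ↥(modularFunctionFieldFull N)) (ha : (a : LaurentSeries ℚ) ∈ igV ℓ),
      igRed ℓ ⟨(a : LaurentSeries ℚ), ha⟩ = w := by
  rw [modularFunctionFieldFullC] at hw
  induction hw using IntermediateField.adjoin_induction with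
  | mem x hx =>
    obtain ⟨d, hd, hdN, rfl⟩ := hx
    haveI := hd
    exact ⟨⟨qExpand ℚ d jq, jqd_mem_full N hdN⟩, qExpand_jq_mem_igV ℓ d, igRed_qExpand_jq ℓ d⟩
  | algebraMap c =>
    obtain ⟨r, rfl⟩ := resZl_surjective (ℓ := ℓ) c
    refine ⟨algebraMap ↥(GaloisRep.ratLocalizedAt ℓ) ↥(modularFunctionFieldFull N) r,
      coe_algebraMap_mem_igV N ℓ r, ?_⟩
    rw [igRed_eq ℓ _ (HahnSeries.C r) 1 (by simp)
      (by rw [map_one, mul_one]; exact coe_algebraMap_eq_toQ (N := N) r), toRes_C, map_one,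
      div_one, algebraMap_laurentSeries_eq_single]
    rfl
  | add x y _ _ hx hy =>
    obtain ⟨a, ha, rfl⟩ := hx
    obtain ⟨b, hb, rfl⟩ := hy
    refine ⟨a + b, (igV ℓ).add_mem ha hb, ?_⟩
    rw [← map_add]
    rfl
  | inv x _ hx =>
    obtain ⟨a, ha, rfl⟩ := hx
    by_cases h0 : igRed ℓ ⟨(a : LaurentSeries ℚ), ha⟩ = 0
    · refine ⟨0, (igV ℓ).zero_mem, ?_⟩
      rw [h0, inv_zero]
      exact map_zero (igRed ℓ)
    · have hinv := inv_mem_igV_of_igRed_ne_zero ℓ ⟨(a : LaurentSeries ℚ), ha⟩ h0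
      refine ⟨a⁻¹, hinv, ?_⟩
      have ha0 : (a : LaurentSeries ℚ) ≠ 0 := by
        intro h
        apply h0
        have : (⟨(a : LaurentSeries ℚ), ha⟩ : igV ℓ) = 0 := Subtype.ext h
        rw [this, map_zero]
      have h1 : (⟨((a⁻¹ : ↥(modularFunctionFieldFull N)) : LaurentSeries ℚ), hinv⟩ : igV ℓ) *
          ⟨(a : LaurentSeries ℚ), ha⟩ = 1 := Subtype.ext (inv_mul_cancel₀ ha0)
      have h2 := congrArg (igRed ℓ) h1
      rw [map_mul, map_one] at h2
      exact eq_inv_of_mul_eq_one_left h2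
  | mul x y _ _ hx hy =>
    obtain ⟨a, ha, rfl⟩ := hx
    obtain ⟨b, hb, rfl⟩ := hy
    refine ⟨a * b, (igV ℓ).mul_mem ha hb, ?_⟩
    rw [← map_mul]
    rfl

/-- Every `w ∈ F_{N,𝔽_ℓ}` is a quotient `ρ(b)/ρ(g(t))` with `b` in the chart. -/
theorem exists_red_eq {t : ↥(modularFunctionFieldFull N)}
    (hS : ({t} : Set ↥(modularFunctionFieldFull N)) ⊆ {jFull N, (jFull N)⁻¹})
    (hHC : ∀ a : ↥(modularFunctionFieldFull N), (a : LaurentSeries ℚ) ∈ igV ℓ →
      ∃ s : ↥(modularFunctionFieldFull N),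
        s ∈ Algebra.adjoin ↥(GaloisRep.ratLocalizedAt ℓ)
          ({t} : Set ↥(modularFunctionFieldFull N)) ∧
        (¬ ∃ v ∈ igV ℓ, (s : LaurentSeries ℚ) = ((ℓ : ℕ) : LaurentSeries ℚ) * v) ∧
        s * a ∈ chartAlg N ℓ {t})
    (w : LaurentSeries (ZMod ℓ)) (hw : w ∈ modularFunctionFieldFullC (ZMod ℓ) N) :
    ∃ (b : H138.chart ↥(GaloisRep.ratLocalizedAt ℓ) ({t} : Set ↥(modularFunctionFieldFull N)))
      (g : Polynomial ↥(GaloisRep.ratLocalizedAt ℓ)),
      redE hS (chartPolyHom ↥(GaloisRep.ratLocalizedAt ℓ) t g) ≠ 0 ∧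
      w * redE hS (chartPolyHom ↥(GaloisRep.ratLocalizedAt ℓ) t g) = redE hS b := by
  obtain ⟨a, ha, rfl⟩ := exists_igRed_eq (N := N) (ℓ := ℓ) w hw
  obtain ⟨s, hs, hsv, hsa⟩ := hHC a ha
  rw [Algebra.adjoin_singleton_eq_range_aeval] at hs
  obtain ⟨g, rfl⟩ := hs
  have hmem : aeval t g ∈ chartAlg N ℓ ({t} : Set ↥(modularFunctionFieldFull N)) := by
    have := (chartPolyHom ↥(GaloisRep.ratLocalizedAt ℓ) t g).2
    rwa [coe_chartPolyHom] at this
  have hsV : (((aeval t g : ↥(modularFunctionFieldFull N))) : LaurentSeries ℚ) ∈ igV ℓ :=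
    coe_mem_igV_of_mem_chartAlg hS hmem
  have hg : redE hS (chartPolyHom ↥(GaloisRep.ratLocalizedAt ℓ) t g) =
      igRed ℓ ⟨(((aeval t g : ↥(modularFunctionFieldFull N))) : LaurentSeries ℚ), hsV⟩ := by
    rw [redE_apply, chartRed_apply]
    congr 1
    apply Subtype.ext
    show (((chartPolyHom ↥(GaloisRep.ratLocalizedAt ℓ) t g :
      H138.chart ↥(GaloisRep.ratLocalizedAt ℓ) ({t} : Set ↥(modularFunctionFieldFull N))) :
      ↥(modularFunctionFieldFull N)) : LaurentSeries ℚ) = _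
    rw [coe_chartPolyHom]
  refine ⟨⟨aeval t g * a, hsa⟩, g, ?_, ?_⟩
  · rw [hg]
    intro h0
    obtain ⟨y, hy⟩ := (igRed_eq_zero_iff ℓ _).mp h0
    apply hsv
    refine ⟨y.1, y.2, ?_⟩
    have := congrArg Subtype.val hy
    simpa using this
  · rw [hg]
    have h1 : redE hS ⟨aeval t g * a, hsa⟩ =
        igRed ℓ (⟨(((aeval t g : ↥(modularFunctionFieldFull N))) : LaurentSeries ℚ), hsV⟩ *
          ⟨(a : LaurentSeries ℚ), ha⟩) := rfl
    rw [h1, map_mul, mul_comm]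

end Fermat.Agent.S37.H997
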