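import Mathlib
import Fermat.Agent.S37.H997.ChartRed
import Fermat.Agent.S37.H700.GaussSpan
import Fermat.Agent.S18.H754.HncTyped
import Fermat.Agent.S18.H997.BranchField
import Fermat.Agent.S18.H456.ModBasic
import Fermat.Agent.S18.H425.GoodModelInv

/-!
# S37 / RIM-NORMAL over `ℤ_(ℓ)` (helper997): finiteness and `hNC` for the charts of the
Igusa model

* `finiteDimensional_baseField_jFull` : `F = ℚ(X₀(N))` is finite over `ℚ(j)` (in the form
  needed by `S18.B12.H33.chart_package`);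
* `toOm : F →+* Ω = Q̄(X₀(N))`, the base change of constants;
* `hNC_chart` : the hypothesis `hNC` of `normal_chart_red` for the chart `H138.chart ℤ_(ℓ) {t}`
  from the unramifiedness of `toOm t` outside `SΩ` (`S18.H754.hNC_typed`);
* `unramified_inv` : unramifiedness of `x⁻¹` outside `{0} ∪ {s⁻¹}` from that of `x`;
* `hNC_fin`, `hNC_inf` : `hNC` for `t = j`, `S = {0, 1728}` and `t = j⁻¹`, `S = {0, 1728⁻¹}`,
  `ℓ ≥ 5`.
-/

set_option autoImplicit false
set_option linter.style.haveILetI false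
set_option linter.unusedSectionVars false
set_option synthInstance.maxHeartbeats 400000

noncomputable section

namespace Fermat.Agent.S37.H997

open Polynomial ModularCurve ModularCurve.IgusaScheme HahnSeries
open Fermat.Agent.S18 Fermat.Agent.S18.B12.H33 Fermat.Agent.S28 Fermat.Agent.S28.H865
open Fermat.Agent.S18.Mod

variable (N : ℕ) [NeZero N] (ℓ : ℕ) [Fact ℓ.Prime]

/-! ### Finiteness -/

/-- `ℚ(j) ⊆ ℚ((q))` is contained in the image of `Frac(ℤ_(ℓ))(j) ⊆ F`. -/
theorem exists_mem_baseField_of_mem_jField {c : LaurentSeries ℚ} (hc : c ∈ jField ℚ) :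
    ∃ c' : ↥(modularFunctionFieldFull N),
      c' ∈ H138.baseField ↥(GaloisRep.ratLocalizedAt ℓ) (jFull N) ∧
        (c' : LaurentSeries ℚ) = c := by
  set K := H138.baseField ↥(GaloisRep.ratLocalizedAt ℓ) (jFull N) with hK
  let K' : IntermediateField ℚ (LaurentSeries ℚ) :=
    Subfield.toIntermediateField
      (K.map (algebraMap ↥(modularFunctionFieldFull N) (LaurentSeries ℚ)))
      (fun x => ⟨algebraMap ℚ ↥(modularFunctionFieldFull N) x, by
        rw [eq_ratCast]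
        exact SubfieldClass.ratCast_mem K x,
        RingHom.map_rat_algebraMap
          (algebraMap ↥(modularFunctionFieldFull N) (LaurentSeries ℚ)) x⟩)
  have hle : jField ℚ ≤ K' := by
    rw [jField, IntermediateField.adjoin_le_iff]
    rintro x rfl
    exact ⟨jFull N, Subfield.subset_closure (Or.inr rfl), rfl⟩
  obtain ⟨c', hc', hcc'⟩ := hle hc
  exact ⟨c', hc', hcc'⟩

/-- `F = ℚ(X₀(N))` is finite over `ℚ(j)`. -/
theorem finiteDimensional_baseField_jFull (hℓN : ¬ ℓ ∣ N) :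
    FiniteDimensional (H138.baseField ↥(GaloisRep.ratLocalizedAt ℓ) (jFull N))
      ↥(modularFunctionFieldFull N) := by
  classical
  have core : CoreData N (ZMod ℓ) :=
    H867.coreData_of_inputs N ℓ hℓN (ZMod ℓ)
      (fun p hp _ _ => H807.nonempty_modPolyData p hp)
      (fun p hp _ _ => H807.nonempty_unitPolyData p hp)
      H25.theta_identity
  obtain ⟨n, y, hy_mem, hy_span, -⟩ := core.exists_basis
  have hYmem : ∀ i, coeffMap (Int.castRingHom ℚ) (y i) ∈ modularFunctionFieldFull N :=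
    fun i => Fermat.Agent.S37.H700.coeffMap_intCast_mem_fullC ℚ N (hy_mem i)
  let Y : Fin n → ↥(modularFunctionFieldFull N) := fun i => ⟨_, hYmem i⟩
  refine Module.finite_def.2 ⟨Finset.univ.image Y, ?_⟩
  rw [eq_top_iff]
  rintro x -
  obtain ⟨c, hc⟩ := (Submodule.mem_span_range_iff_exists_fun _).1 (hy_span x x.2)
  have hex := fun i => exists_mem_baseField_of_mem_jField N ℓ (c i).2
  choose c' hc'K hc' using hex
  have hx : x = ∑ i, (⟨c' i, hc'K i⟩ :
      H138.baseField ↥(GaloisRep.ratLocalizedAt ℓ) (jFull N)) • Y i := by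
    apply Subtype.ext
    rw [← hc]
    have h1 : ((∑ i, (⟨c' i, hc'K i⟩ :
        H138.baseField ↥(GaloisRep.ratLocalizedAt ℓ) (jFull N)) • Y i :
          ↥(modularFunctionFieldFull N)) : LaurentSeries ℚ) =
        ∑ i, (((⟨c' i, hc'K i⟩ :
          H138.baseField ↥(GaloisRep.ratLocalizedAt ℓ) (jFull N)) • Y i :
            ↥(modularFunctionFieldFull N)) : LaurentSeries ℚ) :=
      map_sum (algebraMap ↥(modularFunctionFieldFull N) (LaurentSeries ℚ)) _ _
    rw [h1]
    refine Finset.sum_congr rfl fun i _ => ?_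
    show (c i : LaurentSeries ℚ) * _ = ((c' i : ↥(modularFunctionFieldFull N)) : LaurentSeries ℚ) * _
    rw [hc']
  rw [hx]
  refine Submodule.sum_mem _ fun i _ => Submodule.smul_mem _ _ (Submodule.subset_span ?_)
  exact Finset.mem_coe.2 (Finset.mem_image.2 ⟨i, Finset.mem_univ _, rfl⟩)

/-! ### Base change of constants -/

/-- `F = ℚ(X₀(N)) → Ω = Q̄(X₀(N))`. -/
def toOm : ↥(modularFunctionFieldFull N) →+* Om N where
  toFun x := ⟨coeffEmb Qb (x : LaurentSeries ℚ), coeffEmb_mem_laurentBaseChange Qb x.2⟩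
  map_one' := Subtype.ext (map_one (coeffEmb Qb))
  map_mul' _ _ := Subtype.ext (map_mul (coeffEmb Qb) _ _)
  map_zero' := Subtype.ext (map_zero (coeffEmb Qb))
  map_add' _ _ := Subtype.ext (map_add (coeffEmb Qb) _ _)

theorem coe_toOm (x : ↥(modularFunctionFieldFull N)) :
    ((toOm N x : Om N) : LaurentSeries Qb) = coeffEmb Qb (x : LaurentSeries ℚ) := rfl

theorem toOm_injective : Function.Injective (toOm N) := (toOm N).injective

theorem toOm_jFull : toOm N (jFull N) = jOm N := by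
  apply Subtype.ext
  show coeffEmb Qb jq = coeffEmb Qb (qExpand ℚ 1 jq)
  rw [qExpand_one_apply]

/-- constants of `ℤ_(ℓ)` go to constants of `Q̄` -/
theorem toOm_algebraMap (r : ↥(GaloisRep.ratLocalizedAt ℓ)) :
    toOm N (algebraMap ↥(GaloisRep.ratLocalizedAt ℓ) ↥(modularFunctionFieldFull N) r) =
      algebraMap Qb (Om N) (algebraMap ℚ Qb (r : ℚ)) :=
  congrArg (fun f : ↥(GaloisRep.ratLocalizedAt ℓ) →+* Om N => f r)
    (ratLocalizedAt_ringHom_ext
      ((toOm N).comp (algebraMap ↥(GaloisRep.ratLocalizedAt ℓ) ↥(modularFunctionFieldFull N)))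
      (((algebraMap Qb (Om N)).comp (algebraMap ℚ Qb)).comp
        (GaloisRep.ratLocalizedAt ℓ).subtype))

/-! ### `hNC` for a chart -/

variable {N ℓ}

/-- **`hNC` for a chart of the Igusa model**, from the unramifiedness of `toOm t` outside
`SΩ`. -/
theorem hNC_chart {t : ↥(modularFunctionFieldFull N)}
    (hS : ({t} : Set ↥(modularFunctionFieldFull N)) ⊆ {jFull N, (jFull N)⁻¹})
    (ht : Transcendental ↥(GaloisRep.ratLocalizedAt ℓ) t)
    [FiniteDimensional (H138.baseField ↥(GaloisRep.ratLocalizedAt ℓ) t)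
      ↥(modularFunctionFieldFull N)]
    (hHC : ∀ a : ↥(modularFunctionFieldFull N), (a : LaurentSeries ℚ) ∈ igV ℓ →
      ∃ s : ↥(modularFunctionFieldFull N),
        s ∈ Algebra.adjoin ↥(GaloisRep.ratLocalizedAt ℓ)
          ({t} : Set ↥(modularFunctionFieldFull N)) ∧
        (¬ ∃ v ∈ igV ℓ, (s : LaurentSeries ℚ) = ((ℓ : ℕ) : LaurentSeries ℚ) * v) ∧
        s * a ∈ chartAlg N ℓ {t})
    (S : Finset ↥(GaloisRep.ratLocalizedAt ℓ)) (SΩ : Finset (Om N))
    (hSΩ : ∀ c ∈ SΩ, ∃ s ∈ S, algebraMap Qb (Om N) (algebraMap ℚ Qb (s : ℚ)) = c)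
    (hunr : ∀ O : ValuationSubring (Om N), (∀ a ∈ Lc N, a ∈ O) → ∀ c ∈ Lc N, c ∉ SΩ →
        toOm N t - c ∈ O → (toOm N t - c)⁻¹ ∉ O →
        ∀ u ∈ O, u⁻¹ ∉ O → u * (toOm N t - c)⁻¹ ∈ O) :
    ∀ π : Polynomial ↥(GaloisRep.ratLocalizedAt ℓ), Prime π →
      ¬ Associated π (Polynomial.C (unif ℓ)) → (∀ c ∈ S, ¬ Associated π (Polynomial.X - Polynomial.C c)) →
        (Ideal.span {chartPolyHom ↥(GaloisRep.ratLocalizedAt ℓ) t π}).IsRadical := by
  classical
  haveI : CharZero ↥(GaloisRep.ratLocalizedAt ℓ) :=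
    (GaloisRep.ratLocalizedAt ℓ).subtype.charZero
  haveI := isIntegrallyClosed_polynomial_ratLocalizedAt ℓ
  obtain ⟨hic, hfin⟩ := chart_package (R := ↥(GaloisRep.ratLocalizedAt ℓ)) ht
  letI := chartAlgebra ↥(GaloisRep.ratLocalizedAt ℓ) t
  haveI := hic
  haveI := hfin
  haveI : Module.IsTorsionFree (Polynomial ↥(GaloisRep.ratLocalizedAt ℓ))
      (H138.chart ↥(GaloisRep.ratLocalizedAt ℓ) ({t} : Set ↥(modularFunctionFieldFull N))) :=
    Module.isTorsionFree_iff_algebraMap_injective.2 (chartPolyHom_injective ht)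
  let ι : H138.chart ↥(GaloisRep.ratLocalizedAt ℓ) ({t} : Set ↥(modularFunctionFieldFull N))
      →+* Om N :=
    (toOm N).comp
      (H138.chart ↥(GaloisRep.ratLocalizedAt ℓ)
        ({t} : Set ↥(modularFunctionFieldFull N))).val.toRingHom
  have hιinj : Function.Injective ι := by
    intro a b hab
    exact Subtype.ext (toOm_injective N hab)
  letI : Algebra (H138.chart ↥(GaloisRep.ratLocalizedAt ℓ)
      ({t} : Set ↥(modularFunctionFieldFull N))) (Om N) := ι.toAlgebra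
  haveI : FaithfulSMul (H138.chart ↥(GaloisRep.ratLocalizedAt ℓ)
      ({t} : Set ↥(modularFunctionFieldFull N))) (Om N) :=
    (faithfulSMul_iff_algebraMap_injective _ _).2 hιinj
  have hCr : ∀ r : ↥(GaloisRep.ratLocalizedAt ℓ),
      algebraMap (H138.chart ↥(GaloisRep.ratLocalizedAt ℓ)
        ({t} : Set ↥(modularFunctionFieldFull N))) (Om N)
        (algebraMap (Polynomial ↥(GaloisRep.ratLocalizedAt ℓ))
          (H138.chart ↥(GaloisRep.ratLocalizedAt ℓ)
            ({t} : Set ↥(modularFunctionFieldFull N))) (Polynomial.C r)) =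
        algebraMap Qb (Om N) (algebraMap ℚ Qb (r : ℚ)) := by
    intro r
    have h1 : algebraMap (Polynomial ↥(GaloisRep.ratLocalizedAt ℓ))
        (H138.chart ↥(GaloisRep.ratLocalizedAt ℓ)
          ({t} : Set ↥(modularFunctionFieldFull N))) (Polynomial.C r) =
        algebraMap ↥(GaloisRep.ratLocalizedAt ℓ) (H138.chart ↥(GaloisRep.ratLocalizedAt ℓ)
          ({t} : Set ↥(modularFunctionFieldFull N))) r := chartPolyHom_C t r
    rw [h1]
    exact toOm_algebraMap N ℓ r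
  have hX : algebraMap (H138.chart ↥(GaloisRep.ratLocalizedAt ℓ)
        ({t} : Set ↥(modularFunctionFieldFull N))) (Om N)
        (algebraMap (Polynomial ↥(GaloisRep.ratLocalizedAt ℓ))
          (H138.chart ↥(GaloisRep.ratLocalizedAt ℓ)
            ({t} : Set ↥(modularFunctionFieldFull N))) Polynomial.X) = toOm N t := by
    have h1 : algebraMap (Polynomial ↥(GaloisRep.ratLocalizedAt ℓ))
        (H138.chart ↥(GaloisRep.ratLocalizedAt ℓ)
          ({t} : Set ↥(modularFunctionFieldFull N))) Polynomial.X =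
        chartX ↥(GaloisRep.ratLocalizedAt ℓ) t := by
      show chartPolyHom ↥(GaloisRep.ratLocalizedAt ℓ) t Polynomial.X = _
      rw [chartPolyHom_apply, aeval_X]
    rw [h1]
    rfl
  have hwB : Prime (algebraMap (Polynomial ↥(GaloisRep.ratLocalizedAt ℓ))
      (H138.chart ↥(GaloisRep.ratLocalizedAt ℓ) ({t} : Set ↥(modularFunctionFieldFull N)))
      (Polynomial.C (unif ℓ))) := by
    have h1 : algebraMap (Polynomial ↥(GaloisRep.ratLocalizedAt ℓ))
        (H138.chart ↥(GaloisRep.ratLocalizedAt ℓ)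
          ({t} : Set ↥(modularFunctionFieldFull N))) (Polynomial.C (unif ℓ)) =
        algebraMap ↥(GaloisRep.ratLocalizedAt ℓ) (H138.chart ↥(GaloisRep.ratLocalizedAt ℓ)
          ({t} : Set ↥(modularFunctionFieldFull N))) (unif ℓ) := chartPolyHom_C t _
    rw [h1]
    exact prime_of_red ht (unif ℓ) (unif_irreducible ℓ) (redE hS) (redE_uniformizer hS)
      (redE_ker hS ht hHC)
  refine H754.hNC_typed ↥(GaloisRep.ratLocalizedAt ℓ)
    (H138.chart ↥(GaloisRep.ratLocalizedAt ℓ) ({t} : Set ↥(modularFunctionFieldFull N)))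
    (unif ℓ) (unif_irreducible ℓ) hwB (Lc N) (H456.field_L_algClosed N) ?_ ?_ S SΩ ?_ ?_
  · intro r
    rw [hCr]
    exact ⟨_, rfl⟩
  · rintro a ⟨c, rfl⟩
    have halg : IsAlgebraic ℤ c :=
      (IsFractionRing.isAlgebraic_iff ℤ ℚ Qb).mpr
        ((AlgebraicClosure.isAlgebraic ℚ).isAlgebraic c)
    obtain ⟨P, hP0, hPc⟩ := halg
    refine ⟨P.map (Int.castRingHom ↥(GaloisRep.ratLocalizedAt ℓ)), ?_, ?_⟩
    · rw [Ne, Polynomial.map_eq_zero_iff (RingHom.injective_int _)]
      exact hP0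
    · rw [Polynomial.eval₂_map]
      have h2 : ((algebraMap (H138.chart ↥(GaloisRep.ratLocalizedAt ℓ)
          ({t} : Set ↥(modularFunctionFieldFull N))) (Om N)).comp
          ((algebraMap (Polynomial ↥(GaloisRep.ratLocalizedAt ℓ))
            (H138.chart ↥(GaloisRep.ratLocalizedAt ℓ)
              ({t} : Set ↥(modularFunctionFieldFull N)))).comp Polynomial.C)).comp
          (Int.castRingHom ↥(GaloisRep.ratLocalizedAt ℓ)) =
          (algebraMap Qb (Om N)).comp (algebraMap ℤ Qb) := RingHom.ext_int _ _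
      rw [h2, ← Polynomial.hom_eval₂, ← Polynomial.aeval_def, hPc, map_zero]
  · intro c hc
    obtain ⟨s, hs, hsc⟩ := hSΩ c hc
    exact ⟨s, hs, by rw [hCr]; exact hsc⟩
  · rw [hX]
    exact hunr

/-! ### Unramifiedness of the inverse coordinate -/

/-- `unramified` for `x⁻¹` outside `{0} ∪ {s⁻¹ : s ∈ S, s ≠ 0}` (copy of
`S18.H425.goodModel_unramified_inv`, which is stated for a full `GoodModel`). -/
theorem unramified_inv {Ω : Type*} [Field Ω] [DecidableEq Ω] (Lc : Subfield Ω) (x : Ω)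
    (hx : x ≠ 0) (S : Finset Ω)
    (hunr : ∀ O : ValuationSubring Ω, (∀ a ∈ Lc, a ∈ O) → ∀ c ∈ Lc, c ∉ S →
        x - c ∈ O → (x - c)⁻¹ ∉ O → ∀ t ∈ O, t⁻¹ ∉ O → t * (x - c)⁻¹ ∈ O)
    (O : ValuationSubring Ω) (hL : ∀ a ∈ Lc, a ∈ O) (c : Ω) (hc : c ∈ Lc)
    (hcS : c ∉ insert 0 ((S.erase 0).image (·⁻¹)))
    (h1 : x⁻¹ - c ∈ O) (h2 : (x⁻¹ - c)⁻¹ ∉ O) (t : Ω) (ht : t ∈ O) (ht' : t⁻¹ ∉ O) :
    t * (x⁻¹ - c)⁻¹ ∈ O := by
  have hc0 : c ≠ 0 := by
    rintro rfl
    exact hcS (Finset.mem_insert_self _ _)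
  have hcinvS : c⁻¹ ∉ S := by
    intro hmem
    apply hcS
    apply Finset.mem_insert_of_mem
    rw [Finset.mem_image]
    exact ⟨c⁻¹, Finset.mem_erase.mpr ⟨inv_ne_zero hc0, hmem⟩, inv_inv c⟩
  have hcO : c ∈ O := hL c hc
  have hcinvO : c⁻¹ ∈ O := hL _ (Lc.inv_mem hc)
  obtain ⟨hne, hlt⟩ := (H425.inv_not_mem_iff O).mp h2
  have hvc : O.valuation c = 1 := by
    apply le_antisymm ((ValuationSubring.valuation_le_one_iff O c).mpr hcO)
    have := (ValuationSubring.valuation_le_one_iff O c⁻¹).mpr hcinvO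
    rw [map_inv₀] at this
    exact (inv_le_one₀ (zero_lt_iff.mpr ((Valuation.ne_zero_iff _).mpr hc0))).mp this
  have hvxinv : O.valuation x⁻¹ = 1 := by
    have : x⁻¹ = (x⁻¹ - c) + c := by ring
    rw [this, Valuation.map_add_eq_of_lt_right _ (by rw [hvc]; exact hlt), hvc]
  have hvx : O.valuation x = 1 := by
    rw [map_inv₀] at hvxinv
    exact inv_eq_one.mp hvxinv
  have hxO : x ∈ O := (ValuationSubring.valuation_le_one_iff O x).mp hvx.le
  have hid : x - c⁻¹ = -(c⁻¹ * x * (x⁻¹ - c)) := by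
    field_simp
    ring
  have h1' : x - c⁻¹ ∈ O := by
    rw [hid]
    exact O.neg_mem _ (O.mul_mem _ _ (O.mul_mem _ _ hcinvO hxO) h1)
  have h2' : (x - c⁻¹)⁻¹ ∉ O := by
    rw [H425.inv_not_mem_iff]
    refine ⟨?_, ?_⟩
    · rw [hid]
      exact neg_ne_zero.mpr (mul_ne_zero (mul_ne_zero (inv_ne_zero hc0) hx) hne)
    · rw [hid, Valuation.map_neg, map_mul, map_mul, map_inv₀, hvc, hvx, inv_one, one_mul, one_mul]
      exact hlt
  have key := hunr O hL c⁻¹ (Lc.inv_mem hc) hcinvS h1' h2' t ht ht'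
  have hid2 : t * (x⁻¹ - c)⁻¹ = -(t * (x - c⁻¹)⁻¹ * (c⁻¹ * x)) := by
    have hne' : x - c⁻¹ ≠ 0 := by
      rw [hid]
      exact neg_ne_zero.mpr (mul_ne_zero (mul_ne_zero (inv_ne_zero hc0) hx) hne)
    rw [hid]
    field_simp
  rw [hid2]
  exact O.neg_mem _ (O.mul_mem _ _ key (O.mul_mem _ _ hcinvO hxO))

end Fermat.Agent.S37.H997
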