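import Mathlib
import Fermat.Agent.S37.H997.ChartHnc

/-!
# S37 / RIM-NORMAL over `ℤ_(ℓ)`, `ℓ ≥ 5` (helper997): NORMAL-BASE

The special fibre of the normal model of `X₀(N)` over `ℤ_(ℓ)` (`ℓ ∤ N`, `ℓ ≥ 5`) is normal, in
the two charts `B_fin = IgusaScheme.chartAlgFin N ℓ`, `B_inf = IgusaScheme.chartAlgInf N ℓ`
of the Prelude, in `q`-expansion language:

* `normal_base_fin` : every `w ∈ F_{N,𝔽_ℓ} = modularFunctionFieldFullC (ZMod ℓ) N` integral over
  `𝔽_ℓ[j̄]` is the reduction `S28.H865.chartRedFin N ℓ b` of some `b ∈ B_fin`;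
* `normal_base_inf` : every `w ∈ F_{N,𝔽_ℓ}` integral over `𝔽_ℓ[j̄⁻¹]` is `chartRedInf N ℓ b`,
  `b ∈ B_inf`.

Proof: `H997.normal_chart_red` (= landed `S18.B12.H858.b2Normal`) with
`hdom`/`ker` from S28 (keystone `chartRed_ker_le`), `hsep` from `d j̄/dq ≠ 0`
(`S18.MOD.H396`), `hNC` from the branch data of `X₀(N) → X(1)` over `Q̄`
(`Lib.X0Branch`, `S18.H754.hNC_typed`), `S = {0, 1728}` resp. `{0, 1728⁻¹}`.
-/

set_option autoImplicit false
set_option linter.style.haveILetI false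
set_option linter.unusedSectionVars false
set_option synthInstance.maxHeartbeats 400000

noncomputable section

namespace Fermat.Agent.S37.H997

open Polynomial ModularCurve ModularCurve.IgusaScheme HahnSeries
open Fermat.Agent.S18 Fermat.Agent.S18.B12.H33 Fermat.Agent.S28 Fermat.Agent.S28.H865
open Fermat.Agent.S18.Mod

variable {N : ℕ} [NeZero N] {ℓ : ℕ} [Fact ℓ.Prime]

/-! ### The generic chart -/

/-- **Normality of the special fibre of a chart of the Igusa model.** -/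
theorem normal_base_chart {t : ↥(modularFunctionFieldFull N)}
    (hS : ({t} : Set ↥(modularFunctionFieldFull N)) ⊆ {jFull N, (jFull N)⁻¹})
    (ht : Transcendental ↥(GaloisRep.ratLocalizedAt ℓ) t)
    [FiniteDimensional (H138.baseField ↥(GaloisRep.ratLocalizedAt ℓ) t)
      ↥(modularFunctionFieldFull N)]
    (hHC : ∀ a : ↥(modularFunctionFieldFull N), (a : LaurentSeries ℚ) ∈ igV ℓ →
      ∃ s : ↥(modularFunctionFieldFull N),
        s ∈ Algebra.adjoin ↥(GaloisRep.ratLocalizedAt ℓ)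
          ({t} : Set ↥(modularFunctionFieldFull N)) ∧
        (¬ ∃ v ∈ igV ℓ, (s : LaurentSeries ℚ) = ((ℓ : ℕ) : LaurentSeries ℚ) * v) ∧
        s * a ∈ chartAlg N ℓ {t})
    (hD : Fermat.Agent.S18.MOD.H396.laurentDer (ZMod ℓ)
      (redE hS (chartX ↥(GaloisRep.ratLocalizedAt ℓ) t)) ≠ 0)
    (S : Finset ↥(GaloisRep.ratLocalizedAt ℓ))
    (hSu : ∀ c ∈ S, ∀ c' ∈ S, c ≠ c' → IsUnit (c - c'))
    (hNC : ∀ π : Polynomial ↥(GaloisRep.ratLocalizedAt ℓ), Prime π →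
      ¬ Associated π (Polynomial.C (unif ℓ)) →
      (∀ c ∈ S, ¬ Associated π (Polynomial.X - Polynomial.C c)) →
        (Ideal.span {chartPolyHom ↥(GaloisRep.ratLocalizedAt ℓ) t π}).IsRadical)
    (w : LaurentSeries (ZMod ℓ)) (hw : w ∈ modularFunctionFieldFullC (ZMod ℓ) N)
    (hint : (Polynomial.eval₂RingHom (HahnSeries.C : ZMod ℓ →+* LaurentSeries (ZMod ℓ))
      (redE hS (chartX ↥(GaloisRep.ratLocalizedAt ℓ) t))).IsIntegralElem w) :
    ∃ b : chartAlg N ℓ ({t} : Set ↥(modularFunctionFieldFull N)), chartRed hS b = w := by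
  classical
  obtain ⟨b, g, hg, hz⟩ := exists_red_eq hS hHC w hw
  obtain ⟨pb, hpb, hpbw⟩ := hint
  -- a monic lift of `pb`
  have hlift : pb ∈ Polynomial.lifts (Polynomial.mapRingHom (resZl ℓ)) := by
    rw [Polynomial.mem_lifts]
    exact Polynomial.map_surjective (Polynomial.mapRingHom (resZl ℓ))
      (Polynomial.map_surjective (resZl ℓ) (resZl_surjective (ℓ := ℓ))) pb
  obtain ⟨p, hpmap, -, hp⟩ := Polynomial.lifts_and_degree_eq_and_monic hlift hpb
  have hpz : p.eval₂ ((redE hS).comp (chartPolyHom ↥(GaloisRep.ratLocalizedAt ℓ) t :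
      Polynomial ↥(GaloisRep.ratLocalizedAt ℓ) →+*
        H138.chart ↥(GaloisRep.ratLocalizedAt ℓ) ({t} : Set ↥(modularFunctionFieldFull N))))
      w = 0 := by
    rw [redE_comp_chartPolyHom, ← Polynomial.eval₂_map, hpmap]
    exact hpbw
  obtain ⟨b₀, hb₀⟩ := normal_chart_red ht (unif ℓ) (unif_irreducible ℓ) (redE hS)
    (redE_uniformizer hS) (redE_ker hS ht hHC) (redE_sep hS ht hD) S hSu hNC w b g hg hz p hp hpz
  exact ⟨chartE (ℓ := ℓ) t b₀, hb₀⟩

/-! ### The branch values -/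

theorem not_dvd_1728 (h5 : 5 ≤ ℓ) : ¬ ℓ ∣ 1728 := by
  have hℓ : ℓ.Prime := Fact.out
  intro h
  have h1 : (1728 : ℕ) = 2 ^ 6 * 3 ^ 3 := by norm_num
  rw [h1] at h
  rcases (Nat.Prime.dvd_mul hℓ).1 h with h2 | h3
  · have := Nat.le_of_dvd (by norm_num) (hℓ.dvd_of_dvd_pow h2)
    omega
  · have := Nat.le_of_dvd (by norm_num) (hℓ.dvd_of_dvd_pow h3)
    omega

theorem isUnit_1728 (h5 : 5 ≤ ℓ) : IsUnit (((1728 : ℕ) : ↥(GaloisRep.ratLocalizedAt ℓ))) :=
  isUnit_natCast_of_not_dvd ℓ (not_dvd_1728 h5)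

/-- the branch values of `j` -/
def branchFin (ℓ : ℕ) [Fact ℓ.Prime] : Finset ↥(GaloisRep.ratLocalizedAt ℓ) :=
  by classical exact {0, ((1728 : ℕ) : ↥(GaloisRep.ratLocalizedAt ℓ))}

/-- the branch values of `j⁻¹` -/
def branchInf (h5 : 5 ≤ ℓ) : Finset ↥(GaloisRep.ratLocalizedAt ℓ) :=
  by classical exact {0, (((isUnit_1728 (ℓ := ℓ) h5).unit⁻¹ : (↥(GaloisRep.ratLocalizedAt ℓ))ˣ) :
    ↥(GaloisRep.ratLocalizedAt ℓ))}

theorem branchFin_units (h5 : 5 ≤ ℓ) :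
    ∀ c ∈ branchFin ℓ, ∀ c' ∈ branchFin ℓ, c ≠ c' → IsUnit (c - c') := by
  classical
  intro c hc c' hc' hne
  simp only [branchFin, Finset.mem_insert, Finset.mem_singleton] at hc hc'
  rcases hc with rfl | rfl <;> rcases hc' with rfl | rfl
  · exact absurd rfl hne
  · rw [zero_sub]; exact (isUnit_1728 h5).neg
  · rw [sub_zero]; exact isUnit_1728 h5
  · exact absurd rfl hne

theorem branchInf_units (h5 : 5 ≤ ℓ) :
    ∀ c ∈ branchInf (ℓ := ℓ) h5, ∀ c' ∈ branchInf (ℓ := ℓ) h5, c ≠ c' → IsUnit (c - c') := by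
  classical
  intro c hc c' hc' hne
  simp only [branchInf, Finset.mem_insert, Finset.mem_singleton] at hc hc'
  rcases hc with rfl | rfl <;> rcases hc' with rfl | rfl
  · exact absurd rfl hne
  · rw [zero_sub]; exact (Units.isUnit _).neg
  · rw [sub_zero]; exact Units.isUnit _
  · exact absurd rfl hne

/-! ### The finite chart -/

theorem redE_chartX_fin :
    redE (ℓ := ℓ) (sFin_subset N) (chartX ↥(GaloisRep.ratLocalizedAt ℓ) (jFull N)) =
      jqModC (ZMod ℓ) :=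
  chartRedFin_jChartFin N ℓ

theorem redE_chartX_inf :
    redE (ℓ := ℓ) (sInf_subset N) (chartX ↥(GaloisRep.ratLocalizedAt ℓ) (jFull N)⁻¹) =
      (jqModC (ZMod ℓ))⁻¹ :=
  chartRedInf_jInvChartInf N ℓ

theorem laurentDer_jqModC_ne_zero (κ : Type*) [Field κ] :
    Fermat.Agent.S18.MOD.H396.laurentDer κ (jqModC κ) ≠ 0 := by
  rw [Fermat.Agent.S18.MOD.H396.laurentDer_apply]
  exact Fermat.Agent.S18.MOD.H396.laurentD_jqModC_ne_zero κ

/-- unramifiedness of `j` outside `{0, 1728}` over `Q̄` -/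
theorem unramified_jOm (N : ℕ) [NeZero N] (SΩ : Finset (Om N))
    (hSΩ : ∀ s, s ∈ SΩ ↔ s = 0 ∨ s = 1728) :
    ∀ O : ValuationSubring (Om N), (∀ a ∈ Lc N, a ∈ O) → ∀ c ∈ Lc N, c ∉ SΩ →
      jOm N - c ∈ O → (jOm N - c)⁻¹ ∉ O → ∀ u ∈ O, u⁻¹ ∉ O → u * (jOm N - c)⁻¹ ∈ O := by
  refine Fermat.Agent.S18.H997.unramified_of N (jOm N) 1728 SΩ
    (fun s => by rw [hSΩ s]; norm_num) ?_
  intro c hc0 hc1 v hv
  rw [Fermat.Agent.S18.H997.jOm_eq_jF] at hv ⊢
  exact Fermat.Agent.Lib.X0Branch.ord_sub_eq_one N c hc0 (by simpa using hc1) v hv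

theorem jOm_ne_zero (N : ℕ) [NeZero N] : jOm N ≠ 0 := by
  rw [← toOm_jFull]
  exact (map_ne_zero_iff _ (toOm_injective N)).2 (jFull_ne_zero N)

/-- **`hNC`, finite chart.** -/
theorem hNC_fin (hℓN : ¬ ℓ ∣ N) :
    haveI := finiteDimensional_baseField_jFull N ℓ hℓN
    ∀ π : Polynomial ↥(GaloisRep.ratLocalizedAt ℓ), Prime π →
      ¬ Associated π (Polynomial.C (unif ℓ)) →
      (∀ c ∈ branchFin ℓ, ¬ Associated π (Polynomial.X - Polynomial.C c)) →
        (Ideal.span {chartPolyHom ↥(GaloisRep.ratLocalizedAt ℓ) (jFull N) π}).IsRadical := by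
  classical
  haveI := finiteDimensional_baseField_jFull N ℓ hℓN
  refine hNC_chart (sFin_subset N) (transcendental_jFull N ℓ)
    (exists_mul_mem_chartAlgFin N ℓ (basisData N ℓ hℓN)) (branchFin ℓ)
    ({0, 1728} : Finset (Om N)) ?_ ?_
  · intro c hc
    simp only [Finset.mem_insert, Finset.mem_singleton] at hc
    rcases hc with rfl | rfl
    · exact ⟨0, by simp [branchFin], by simp⟩
    · refine ⟨((1728 : ℕ) : ↥(GaloisRep.ratLocalizedAt ℓ)), by simp [branchFin], ?_⟩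
      have h1 : ((((1728 : ℕ) : ↥(GaloisRep.ratLocalizedAt ℓ)) : ℚ)) = ((1728 : ℕ) : ℚ) :=
        map_natCast (GaloisRep.ratLocalizedAt ℓ).subtype 1728
      rw [h1, map_natCast, map_natCast]
      norm_num
  · rw [toOm_jFull]
    exact unramified_jOm N _ (fun s => by simp)

/-- **`hNC`, chart at infinity.** -/
theorem hNC_inf (hℓN : ¬ ℓ ∣ N) (h5 : 5 ≤ ℓ) :
    haveI := finiteDimensional_baseField_inv (R := ↥(GaloisRep.ratLocalizedAt ℓ)) (jFull N)
      (h := finiteDimensional_baseField_jFull N ℓ hℓN)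
    ∀ π : Polynomial ↥(GaloisRep.ratLocalizedAt ℓ), Prime π →
      ¬ Associated π (Polynomial.C (unif ℓ)) →
      (∀ c ∈ branchInf (ℓ := ℓ) h5, ¬ Associated π (Polynomial.X - Polynomial.C c)) →
        (Ideal.span {chartPolyHom ↥(GaloisRep.ratLocalizedAt ℓ) (jFull N)⁻¹ π}).IsRadical := by
  classical
  haveI := finiteDimensional_baseField_inv (R := ↥(GaloisRep.ratLocalizedAt ℓ)) (jFull N)
    (h := finiteDimensional_baseField_jFull N ℓ hℓN)
  refine hNC_chart (sInf_subset N) (transcendental_jFull_inv N ℓ)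
    (exists_mul_mem_chartAlgInf N ℓ (basisData N ℓ hℓN)) (branchInf (ℓ := ℓ) h5)
    (insert 0 ((({0, 1728} : Finset (Om N)).erase 0).image (·⁻¹))) ?_ ?_
  · intro c hc
    rw [Finset.mem_insert] at hc
    rcases hc with rfl | hc
    · exact ⟨0, by simp [branchInf], by simp⟩
    · rw [Finset.mem_image] at hc
      obtain ⟨s, hs, rfl⟩ := hc
      rw [Finset.mem_erase, Finset.mem_insert, Finset.mem_singleton] at hs
      obtain ⟨hs0, hs1⟩ := hs
      have hs2 : s = 1728 := hs1.resolve_left hs0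
      subst hs2
      set u : (↥(GaloisRep.ratLocalizedAt ℓ))ˣ := (isUnit_1728 (ℓ := ℓ) h5).unit⁻¹ with hu
      refine ⟨(u : ↥(GaloisRep.ratLocalizedAt ℓ)), by simp [branchInf, hu], ?_⟩
      have h1 : (u : ↥(GaloisRep.ratLocalizedAt ℓ)) *
          ((1728 : ℕ) : ↥(GaloisRep.ratLocalizedAt ℓ)) = 1 := by
        rw [hu]
        exact Units.inv_mul_of_eq (IsUnit.unit_spec _)
      have h2 : (((u : ↥(GaloisRep.ratLocalizedAt ℓ)) : ℚ)) * ((1728 : ℕ) : ℚ) = 1 := by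
        have := congrArg (GaloisRep.ratLocalizedAt ℓ).subtype h1
        rwa [map_mul, map_natCast, map_one] at this
      have h3 : (((u : ↥(GaloisRep.ratLocalizedAt ℓ)) : ℚ)) = (1728 : ℚ)⁻¹ := by
        apply eq_inv_of_mul_eq_one_left
        rw [← h2]
        norm_num
      rw [h3, map_inv₀, map_inv₀]
      congr 1
      rw [map_ofNat, map_ofNat]
  · have h1 : toOm N (jFull N)⁻¹ = (jOm N)⁻¹ := by
      rw [map_inv₀, toOm_jFull]
    rw [h1]
    intro O hL c hc hcS hmem hinv u hu hu'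
    exact unramified_inv (Lc N) (jOm N) (jOm_ne_zero N) _
      (unramified_jOm N ({0, 1728} : Finset (Om N)) (fun s => by simp)) O hL c hc hcS hmem hinv
      u hu hu'

/-- **NORMAL-BASE, finite chart**: every `w ∈ F_{N,𝔽_ℓ}` integral over `𝔽_ℓ[j̄]` is the
reduction of an element of `IgusaScheme.chartAlgFin N ℓ`  (`ℓ ∤ N`, `ℓ ≥ 5`). -/
theorem normal_base_fin (hℓN : ¬ ℓ ∣ N) (h5 : 5 ≤ ℓ)
    (w : LaurentSeries (ZMod ℓ)) (hw : w ∈ modularFunctionFieldFullC (ZMod ℓ) N)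
    (hint : (Polynomial.eval₂RingHom (HahnSeries.C : ZMod ℓ →+* LaurentSeries (ZMod ℓ))
      (jqModC (ZMod ℓ))).IsIntegralElem w) :
    ∃ b : chartAlgFin N ℓ, chartRedFin N ℓ b = w := by
  haveI := finiteDimensional_baseField_jFull N ℓ hℓN
  refine normal_base_chart (sFin_subset N) (transcendental_jFull N ℓ)
    (exists_mul_mem_chartAlgFin N ℓ (basisData N ℓ hℓN)) ?_ (branchFin ℓ) (branchFin_units h5)
    (hNC_fin hℓN) w hw ?_
  · rw [redE_chartX_fin]
    exact laurentDer_jqModC_ne_zero (ZMod ℓ)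
  · rw [redE_chartX_fin]
    exact hint

/-- **NORMAL-BASE, chart at infinity**: every `w ∈ F_{N,𝔽_ℓ}` integral over `𝔽_ℓ[j̄⁻¹]` is the
reduction of an element of `IgusaScheme.chartAlgInf N ℓ`  (`ℓ ∤ N`, `ℓ ≥ 5`). -/
theorem normal_base_inf (hℓN : ¬ ℓ ∣ N) (h5 : 5 ≤ ℓ)
    (w : LaurentSeries (ZMod ℓ)) (hw : w ∈ modularFunctionFieldFullC (ZMod ℓ) N)
    (hint : (Polynomial.eval₂RingHom (HahnSeries.C : ZMod ℓ →+* LaurentSeries (ZMod ℓ))
      (jqModC (ZMod ℓ))⁻¹).IsIntegralElem w) :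
    ∃ b : chartAlgInf N ℓ, chartRedInf N ℓ b = w := by
  haveI := finiteDimensional_baseField_inv (R := ↥(GaloisRep.ratLocalizedAt ℓ)) (jFull N)
    (h := finiteDimensional_baseField_jFull N ℓ hℓN)
  refine normal_base_chart (sInf_subset N) (transcendental_jFull_inv N ℓ)
    (exists_mul_mem_chartAlgInf N ℓ (basisData N ℓ hℓN)) ?_ (branchInf (ℓ := ℓ) h5)
    (branchInf_units h5) (hNC_inf hℓN h5) w hw ?_
  · rw [redE_chartX_inf]
    exact laurentDer_inv_ne_zero (ZMod ℓ) _ (laurentDer_jqModC_ne_zero (ZMod ℓ))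
  · rw [redE_chartX_inf]
    exact hint

end Fermat.Agent.S37.H997
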